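import Fermat.Agent.UnitEquationLinear.UnitEquation
import Fermat.Agent.BakerExplicit.DiscriminantField

/-!
# Discriminant equations in a number field, polynomially

The differences of the conjugates lie in the fixed normal closure and divide the discriminant, so
their ratios are bounded by a power of it; their product is the discriminant, so they are bounded
by a power of it, and an integer translation then bounds the conjugates themselves.
-/

set_option autoImplicit false

noncomputable section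

namespace FA.UnitEquationLinear

open Finset NumberField Polynomial Module FA.Gyory
open BakerExplicit.DiscriminantField

/-- The product of the differences of the roots. -/
theorem prod_roots_sub_eq {f : ℤ[X]} (hf : f.Monic) (h0 : rootProd f ≠ 0) :
    ∏ z ∈ (f.map (Int.castRingHom ℂ)).roots.toFinset,
      ∏ w ∈ (f.map (Int.castRingHom ℂ)).roots.toFinset.erase z, ‖z - w‖ =
        |(rootProd f : ℝ)| := by
  classical
  have hnd := nodup_roots_of_rootProd (E := ℂ) hf h0
  rw [← Complex.norm_intCast, cast_rootProd hf, prod_map_roots hnd, norm_prod]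
  refine prod_congr rfl fun z hz => ?_
  have he := hnd.erase z
  rw [(IsAlgClosed.splits _).eval_root_derivative (hf.map _) (Multiset.mem_toFinset.1 hz),
    prod_map_roots he, norm_prod]
  refine prod_congr (Finset.ext fun w => ?_) fun _ _ => rfl
  rw [mem_erase, Multiset.mem_toFinset, Multiset.mem_toFinset, hnd.mem_erase_iff]

/-- A bound for all differences of the roots bounds them after a translation. -/
theorem exists_translation {f : ℤ[X]} (hf : f.Monic) {B : ℝ} (hB : 1 ≤ B)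
    (hsep : ∀ z ∈ (f.map (Int.castRingHom ℂ)).roots, ∀ w ∈ (f.map (Int.castRingHom ℂ)).roots,
      ‖z - w‖ ≤ B) :
    ∃ a : ℤ, ∀ z ∈ (f.map (Int.castRingHom ℂ)).roots, ‖z - a‖ ≤ 2 * B := by
  classical
  set F := f.map (Int.castRingHom ℂ) with hF
  set n := F.roots.card with hn
  set s : ℤ := -f.nextCoeff with hs
  refine ⟨s / (n : ℤ), fun z hz => ?_⟩
  have hn0 : 0 < n := Multiset.card_pos_iff_exists_mem.2 ⟨z, hz⟩
  have hsum : F.roots.sum = (s : ℂ) := by
    have h := (IsAlgClosed.splits F).nextCoeff_eq_neg_sum_roots_of_monic (hf.map _)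
    rw [hF, nextCoeff_map Int.cast_injective] at h
    rw [hs, hF, Int.cast_neg, ← eq_intCast (Int.castRingHom ℂ) f.nextCoeff, h, neg_neg]
  have h1 : (n : ℂ) * (z - (s / (n : ℤ) : ℤ)) =
      (F.roots.map fun w => z - w).sum + ((s % (n : ℤ) : ℤ) : ℂ) := by
    rw [Multiset.sum_map_sub, Multiset.map_const', Multiset.sum_replicate, Multiset.map_id',
      hsum, ← hn, nsmul_eq_mul, Int.emod_def]
    push_cast
    ring
  have h2 : ‖(F.roots.map fun w => z - w).sum‖ ≤ (n : ℝ) * B := by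
    refine (norm_multiset_sum_le _).trans ?_
    rw [Multiset.map_map]
    refine (Multiset.sum_le_card_nsmul _ B fun x hx => ?_).trans_eq ?_
    · obtain ⟨w, hw, rfl⟩ := Multiset.mem_map.1 hx
      exact hsep z hz w hw
    · rw [Multiset.card_map, nsmul_eq_mul]
  have h3 : ‖((s % (n : ℤ) : ℤ) : ℂ)‖ ≤ (n : ℝ) * B := by
    have e1 := Int.emod_nonneg s (show (n : ℤ) ≠ 0 by omega)
    have e2 := Int.emod_lt_of_pos s (show (0 : ℤ) < (n : ℤ) by omega)
    rw [Complex.norm_intCast, ← Int.cast_abs, abs_of_nonneg e1]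
    refine le_trans ?_ (le_mul_of_one_le_right (Nat.cast_nonneg n) hB)
    exact_mod_cast e2.le
  have h4 := congrArg (‖·‖) h1
  simp only [norm_mul, Complex.norm_natCast] at h4
  have h5 : (n : ℝ) * ‖z - (s / (n : ℤ) : ℤ)‖ ≤ (n : ℝ) * (2 * B) := by
    rw [h4]
    refine (norm_add_le _ _).trans ?_
    linarith
  exact le_of_mul_le_mul_left h5 (by exact_mod_cast hn0)

variable {K : Type*} [Field K] [NumberField K]

/-- The roots of the minimal polynomial of an integer lie in the normal closure. -/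
theorem mem_normalClosure_of_root (θ : 𝓞 K) {z : ℂ}
    (hz : z ∈ ((minpoly ℤ (θ : K)).map (Int.castRingHom ℂ)).roots) :
    z ∈ IntermediateField.normalClosure ℚ K ℂ := by
  have hroot : z ∈ (minpoly ℚ (θ : K)).rootSet ℂ := by
    rw [mem_rootSet, minpoly.isIntegrallyClosed_eq_field_fractions' ℚ θ.isIntegral_coe,
      aeval_map_algebraMap]
    refine ⟨((minpoly.monic θ.isIntegral_coe).map _).ne_zero, ?_⟩
    rw [aeval_def, algebraMap_int_eq, ← eval_map]
    exact (mem_roots'.1 hz).2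
  rw [← NumberField.Embeddings.range_eval_eq_rootSet_minpoly] at hroot
  obtain ⟨σ, rfl⟩ := hroot
  exact σ.toRatAlgHom.fieldRange_le_normalClosure ⟨(θ : K), rfl⟩

/-- The minimal polynomial of an integer has distinct roots. -/
theorem rootProd_minpoly_ne_zero (θ : 𝓞 K) : rootProd (minpoly ℤ (θ : K)) ≠ 0 := by
  intro h0
  have hm := minpoly.monic θ.isIntegral_coe
  have h1 := cast_rootProd (E := ℂ) hm
  rw [h0, Int.cast_zero, eq_comm, Multiset.prod_eq_zero_iff, Multiset.mem_map] at h1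
  obtain ⟨z, hz, hz0⟩ := h1
  have hs : ((minpoly ℤ (θ : K)).map (Int.castRingHom ℂ)).Separable := by
    have h2 : (minpoly ℚ (θ : K)).Separable := Algebra.IsSeparable.isSeparable ℚ _
    rw [minpoly.isIntegrallyClosed_eq_field_fractions' ℚ θ.isIntegral_coe] at h2
    rw [← Subsingleton.elim ((algebraMap ℚ ℂ).comp (algebraMap ℤ ℚ)) (Int.castRingHom ℂ),
      ← Polynomial.map_map]
    exact h2.map
  refine hs.eval₂_derivative_ne_zero (RingHom.id ℂ) (x := z) ?_ ?_
  · exact (mem_roots'.1 hz).2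
  · exact hz0

/-- **The roots are within a power of the discriminant from each other.** -/
theorem exists_spread_bound :
    ∃ T : ℕ, ∀ (θ : 𝓞 K) (X : ℕ), (minpoly ℤ (θ : K)).discr.natAbs ≤ X →
      ∀ z ∈ ((minpoly ℤ (θ : K)).map (Int.castRingHom ℂ)).roots,
      ∀ w ∈ ((minpoly ℤ (θ : K)).map (Int.castRingHom ℂ)).roots,
        ‖z - w‖ ≤ (2 * (X : ℝ)) ^ T := by
  classical
  let F := IntermediateField.normalClosure ℚ K ℂ
  have : NumberField F := NumberField.mk
  obtain ⟨T₀, hT₀⟩ := exists_norm_triple_bound (K := F)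
  set g := finrank ℚ F with hg
  refine ⟨g * T₀ + g * T₀ + 1, fun θ X hX z hz w hw => ?_⟩
  set f := minpoly ℤ (θ : K)
  have hf : f.Monic := minpoly.monic θ.isIntegral_coe
  have h0 : rootProd f ≠ 0 := rootProd_minpoly_ne_zero θ
  rw [← natAbs_rootProd hf] at hX
  have hX1 : 1 ≤ X := (Int.natAbs_pos.2 h0).trans_le hX
  set S := (f.map (Int.castRingHom ℂ)).roots.toFinset
  have hlift : ∀ a ∈ S, ∃ x : 𝓞 F, ((x : F) : ℂ) = a := fun a ha => by
    rw [Multiset.mem_toFinset] at ha
    exact ⟨⟨⟨a, mem_normalClosure_of_root θ ha⟩,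
      (isIntegral_algebraMap_iff (algebraMap F ℂ).injective).1
        (isIntegral_of_mem_roots hf ha)⟩, rfl⟩
  choose ξ hξ using hlift
  have hξ0 : ∀ a (ha : a ∈ S), aeval (ξ a ha) f = 0 := fun a ha => by
    refine RingOfIntegers.coe_injective ((algebraMap F ℂ).injective ?_)
    rw [map_zero, map_zero, ← aeval_algebraMap_apply, ← aeval_algebraMap_apply,
      show algebraMap F ℂ (algebraMap (𝓞 F) F (ξ a ha)) = a from hξ a ha, aeval_def,
      algebraMap_int_eq, ← eval_map]
    exact (mem_roots'.1 (Multiset.mem_toFinset.1 ha)).2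
  have hne : ∀ {a b : ℂ} (ha : a ∈ S) (hb : b ∈ S), a ≠ b → ξ a ha - ξ b hb ≠ 0 :=
    fun {a b} ha hb hab => sub_ne_zero.2 fun e => hab (by rw [← hξ a ha, ← hξ b hb, e])
  have hnorm : ∀ {a b : ℂ} (ha : a ∈ S) (hb : b ∈ S), a ≠ b →
      (Algebra.norm ℤ (ξ a ha - ξ b hb)).natAbs ≤ X ^ g := fun {a b} ha hb hab => by
    have h1 := map_dvd (Algebra.norm ℤ)
      (sub_dvd_rootProd hf (hξ0 a ha) (hξ0 b hb) fun e => hab (by rw [← hξ a ha, ← hξ b hb, e]))
    rw [← eq_intCast (algebraMap ℤ (𝓞 F)), Algebra.norm_algebraMap, RingOfIntegers.rank] at h1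
    have h2 := Nat.le_of_dvd (Nat.pos_of_ne_zero (Int.natAbs_ne_zero.2 (pow_ne_zero _ h0)))
      (Int.natAbs_dvd_natAbs.2 h1)
    rw [Int.natAbs_pow] at h2
    exact h2.trans (Nat.pow_le_pow_left hX _)
  set P : ℝ := (2 * (X : ℝ)) ^ (g * T₀) with hP
  have h2X : (1 : ℝ) ≤ 2 * (X : ℝ) := by
    have : (1 : ℝ) ≤ X := by exact_mod_cast hX1
    linarith
  have hP1 : (1 : ℝ) ≤ P := one_le_pow₀ h2X
  have hP0 : (0 : ℝ) ≤ P := zero_le_one.trans hP1
  -- two differences with a common end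
  have hstep : ∀ a ∈ S, ∀ b ∈ S, ∀ c ∈ S, b ≠ a → c ≠ a → ‖a - b‖ ≤ P * ‖a - c‖ := by
    intro a ha b hb c hc hba hca
    rcases eq_or_ne b c with rfl | hbc
    · exact le_mul_of_one_le_left (norm_nonneg _) hP1
    have hpow : (2 * ((X ^ g : ℕ) : ℝ)) ^ T₀ ≤ P := by
      rw [hP, pow_mul]
      refine pow_le_pow_left₀ (by positivity) ?_ _
      rw [Nat.cast_pow, mul_pow]
      exact mul_le_mul_of_nonneg_right (le_self_pow₀ one_le_two finrank_pos.ne') (by positivity)
    have h1 := hT₀ (ξ a ha - ξ b hb) (ξ c hc - ξ a ha) (ξ b hb - ξ c hc) (X ^ g)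
      (hne ha hb hba.symm) (hne hc ha hca) (hne hb hc hbc) (by ring) (hnorm ha hb hba.symm)
      (hnorm hc ha hca) (hnorm hb hc hbc) (algebraMap F ℂ)
    simp only [map_sub] at h1
    simp only [RingOfIntegers.coe_eq_algebraMap] at hξ
    rw [show (algebraMap F ℂ) (algebraMap (𝓞 F) F (ξ a ha)) = a from hξ a ha,
      show (algebraMap F ℂ) (algebraMap (𝓞 F) F (ξ b hb)) = b from hξ b hb,
      show (algebraMap F ℂ) (algebraMap (𝓞 F) F (ξ c hc)) = c from hξ c hc] at h1
    rw [norm_sub_rev a c]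
    exact h1.trans (mul_le_mul_of_nonneg_right hpow (norm_nonneg _))
  rw [← Multiset.mem_toFinset] at hz hw
  rcases eq_or_ne w z with rfl | hwz
  · rw [sub_self, norm_zero]; positivity
  -- one of them is small
  obtain ⟨p, hp, q, hq, hqp, hsmall⟩ : ∃ p ∈ S, ∃ q ∈ S, q ≠ p ∧ ‖p - q‖ ≤ (X : ℝ) := by
    by_contra hno
    push Not at hno
    have h1 := prod_roots_sub_eq hf h0
    have hX' : |(rootProd f : ℝ)| ≤ (X : ℝ) := by
      rw [← Int.cast_abs, ← Int.natCast_natAbs, Int.cast_natCast]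
      exact_mod_cast hX
    have hge : ∀ p ∈ S, ∀ q ∈ S.erase p, (1 : ℝ) ≤ ‖p - q‖ := fun p hp q hq =>
      (show (1 : ℝ) ≤ X by exact_mod_cast hX1).trans
        (hno p hp q (mem_erase.1 hq).2 (mem_erase.1 hq).1).le
    rw [← mul_prod_erase S _ hz, ← mul_prod_erase (S.erase z) _ (mem_erase.2 ⟨hwz, hw⟩)] at h1
    have h2 : (1 : ℝ) ≤ ∏ q ∈ (S.erase z).erase w, ‖z - q‖ :=
      one_le_prod fun q hq => hge z hz q (erase_subset _ _ hq)
    have h3 : (1 : ℝ) ≤ ∏ p ∈ S.erase z, ∏ q ∈ S.erase p, ‖p - q‖ :=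
      one_le_prod fun p hp => one_le_prod fun q hq => hge p (mem_erase.1 hp).2 q hq
    have h4 := le_mul_of_one_le_right (norm_nonneg (z - w)) h2
    have h5 := le_mul_of_one_le_right ((norm_nonneg (z - w)).trans h4) h3
    linarith [hno z hz w hw hwz]
  have hchain : ‖z - w‖ ≤ P * (P * ‖p - q‖) := by
    rcases eq_or_ne z p with rfl | hzp
    · exact (hstep z hz w hw q hq hwz hqp).trans (mul_le_mul_of_nonneg_left
        (le_mul_of_one_le_left (norm_nonneg _) hP1) hP0)
    · refine (hstep z hz w hw p hp hwz hzp.symm).trans (mul_le_mul_of_nonneg_left ?_ hP0)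
      rw [norm_sub_rev]
      exact hstep p hp z hz q hq hzp hqp
  refine hchain.trans ?_
  rw [pow_succ, pow_add, ← hP, mul_assoc]
  refine mul_le_mul_of_nonneg_left (mul_le_mul_of_nonneg_left (hsmall.trans ?_) hP0) hP0
  linarith [Nat.cast_nonneg (α := ℝ) X]

/-- **The discriminant equation**: up to an integer translation the conjugates are bounded by a
power of the discriminant. -/
theorem exists_translation_bound :
    ∃ T : ℕ, ∀ (θ : 𝓞 K) (X : ℕ), (minpoly ℤ (θ : K)).discr.natAbs ≤ X →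
      ∃ a : ℤ, ∀ σ : K →+* ℂ, ‖σ (θ : K) - a‖ ≤ (2 * (X : ℝ)) ^ T := by
  obtain ⟨T, hT⟩ := exists_spread_bound (K := K)
  refine ⟨T + 1, fun θ X hX => ?_⟩
  have hf : (minpoly ℤ (θ : K)).Monic := minpoly.monic θ.isIntegral_coe
  have hX1 : (1 : ℝ) ≤ X := by
    rw [← natAbs_rootProd hf] at hX
    exact_mod_cast (Int.natAbs_pos.2 (rootProd_minpoly_ne_zero θ)).trans_le hX
  obtain ⟨a, ha⟩ := exists_translation hf (one_le_pow₀ (show (1 : ℝ) ≤ 2 * X by linarith) (n := T))
    (hT θ X hX)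
  refine ⟨a, fun σ => (ha _ ((mem_roots (hf.map _).ne_zero).2 ?_)).trans ?_⟩
  · rw [IsRoot.def, eval_map, ← algebraMap_int_eq, ← aeval_def,
      show σ (θ : K) = σ.toIntAlgHom (θ : K) from rfl, aeval_algHom_apply, minpoly.aeval,
      map_zero]
  · rw [pow_succ, mul_comm (_ ^ T) _]
    exact mul_le_mul_of_nonneg_right (by linarith) (by positivity)

/-- **Integers of given index**: the same with the discriminant of the powers of a generator. -/
theorem exists_translation_bound_of_basis :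
    ∃ T : ℕ, ∀ (θ : 𝓞 K) (X : ℕ) (pb : PowerBasis ℚ K), pb.gen = (θ : K) →
      |Algebra.discr ℚ pb.basis| ≤ (X : ℚ) →
      ∃ a : ℤ, ∀ σ : K →+* ℂ, ‖σ (θ : K) - a‖ ≤ (2 * (X : ℝ)) ^ T := by
  obtain ⟨T, hT⟩ := exists_translation_bound (K := K)
  refine ⟨T, fun θ X pb hpb hX => hT θ X ?_⟩
  rw [← abs_rootProd_minpoly pb (hpb.symm ▸ θ.isIntegral_coe), hpb, ← Int.cast_abs,
    ← Int.natCast_natAbs, Int.cast_natCast, natAbs_rootProd (minpoly.monic θ.isIntegral_coe)] at hX
  exact_mod_cast hX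

end FA.UnitEquationLinear

end
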