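import Fermat.Agent.Feldman.NormForm
import Fermat.Agent.BakerExplicit.UnitEquation

/-!
# Three numbers of bounded norm with sum zero, linearly

Where `a / b` is smallest `-c / b` is near `1`; it is a number of height `O (R)` times units with
exponents `O (T + R)`, so the sharpened theorem of Baker gives `T = O (R)`.
-/

set_option autoImplicit false

noncomputable section

namespace FA.UnitEquationLinear

open Finset NumberField NumberField.Units Module
open BakerExplicit.EffectiveThue BakerExplicit.UnitExponents BakerExplicit.EffectiveUnits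
open scoped Real

variable {K : Type*} [Field K] [NumberField K]

/-- The height of the numbers in the form. -/
def formSize (d A H : ℕ) : ℕ := d * (4 * A + 2 * H) + 8

/-- **Baker's theorem applied.** -/
theorem form_le {d A H R r m N : ℕ} (hd : finrank ℚ K ≤ d) (hR : 1 ≤ R) (ψ : K →+* ℂ)
    {u : Fin r → (𝓞 K)ˣ} (huh : ∀ i (σ : K →+* ℂ), |Real.log ‖σ (u i : K)‖| ≤ H)
    {k : Fin r → ℤ} (hN : 1 ≤ N) (hkm : ∀ i, (k i).natAbs ≤ N) (hNm : (r + 1) * N ≤ 2 ^ m * R)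
    {γ₂ γ₃ : 𝓞 K} (h₂ : γ₂ ≠ 0) (h₃ : γ₃ ≠ 0)
    (hlog₂ : ∀ σ : K →+* ℂ, |Real.log ‖σ (γ₂ : K)‖| ≤ ((A * R : ℕ) : ℝ))
    (hlog₃ : ∀ σ : K →+* ℂ, |Real.log ‖σ (γ₃ : K)‖| ≤ ((A * R : ℕ) : ℝ)) {P : ℂ}
    (hP : P = ψ (-(γ₃ : K) / (γ₂ : K)) * ∏ i, ψ (u i : K) ^ k i) (hΛ0 : Complex.log P ≠ 0) :
    1 / (2 : ℝ) ^ (R * (BakerLastHeight.lastHeightConst (r + 1) d *
        (formSize d A H + m + 1)) ^ BakerLastHeight.lastHeightKappa (r + 1)) ≤
      ‖Complex.log P‖ := by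
  classical
  have hne : ∀ {z : 𝓞 K}, z ≠ 0 → ∀ σ : K →+* ℂ, σ (z : K) ≠ 0 := fun hz σ =>
    (map_ne_zero σ).2 (RingOfIntegers.coe_ne_zero_iff.2 hz)
  have hH : ∀ {x : 𝓞 K} {a : ℕ}, (∀ σ : K →+* ℂ, σ (x : K) ≠ 0) →
      (∀ σ : K →+* ℂ, |Real.log ‖σ (x : K)‖| ≤ a) →
      Height.logHeight₁ (x : K) ≤ ((d * (2 * a) : ℕ) : ℝ) := fun {x a} hx0 hx =>
    (Feldman.logHeight_le_of_bounded x.isIntegral_coe fun σ =>
      le_two_pow_of_abs_log_le (norm_pos_iff.2 (hx0 σ)) (hx σ)).trans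
      (Nat.cast_le.2 (Nat.mul_le_mul_right _ hd))
  set α₀ : K := -(γ₃ : K) / (γ₂ : K) with hα₀def
  set F := formSize d A H with hF
  have hα₀0 : ψ α₀ ≠ 0 := by
    rw [hα₀def, map_div₀, map_neg]
    exact div_ne_zero (neg_ne_zero.2 (hne h₃ ψ)) (hne h₂ ψ)
  have hψu : ∀ i, ψ (u i : K) ≠ 0 := fun i => map_unit_ne_zero ψ (u i)
  have hα₀H : Height.logHeight₁ α₀ + 4 ≤ ((F * R : ℕ) : ℝ) := by
    have h0 : Height.logHeight₁ (-(γ₃ : K)) ≤ ((d * (2 * (A * R)) : ℕ) : ℝ) := by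
      rw [Height.logHeight₁_neg]; exact hH (hne h₃) hlog₃
    have h1 := Feldman.logHeight_div_le h0 (hH (hne h₂) hlog₂)
    refine (add_le_add h1 le_rfl).trans ?_
    have h2 : d * (2 * (A * R)) + d * (2 * (A * R)) + 4 ≤ F * R := by
      have e : F * R = d * (2 * (A * R)) + d * (2 * (A * R)) + (d * (2 * H) + 8) * R := by
        rw [hF, formSize]; ring
      have h3 : 4 * 1 ≤ (d * (2 * H) + 8) * R := Nat.mul_le_mul (by omega) hR
      omega
    exact_mod_cast h2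
  have hH8 : (8 : ℝ) ≤ F := by exact_mod_cast (Nat.le_add_left 8 _)
  have huH : ∀ i, Height.logHeight₁ (u i : K) + 4 ≤ (F : ℝ) := fun i => by
    refine (add_le_add (hH (fun σ => map_unit_ne_zero σ (u i)) (huh i)) le_rfl).trans ?_
    have h2 : d * (2 * H) + 4 ≤ F := by
      have e : F = d * (4 * A) + d * (2 * H) + 8 := by rw [hF, formSize]; ring
      omega
    exact_mod_cast h2
  set S := Complex.log (ψ α₀) + ∑ i, (k i : ℂ) * Complex.log (ψ (u i : K)) with hS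
  have hexpS : Complex.exp S = P := by
    rw [hS, Complex.exp_add, Complex.exp_sum, Complex.exp_log hα₀0, hP]
    congr 1
    exact prod_congr rfl fun i _ => by rw [Complex.exp_int_mul, Complex.exp_log (hψu i)]
  have hP0 : P ≠ 0 := hexpS ▸ Complex.exp_ne_zero _
  obtain ⟨e, he⟩ := Complex.exp_eq_exp_iff_exists_int.1
    ((Complex.exp_log hP0).trans hexpS.symm)
  set l : Fin (r + 1) → ℂ := Fin.cons (2 * π * Complex.I) fun i => Complex.log (ψ (u i : K))
  set b : Fin (r + 1) → ℤ := Fin.cons e k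
  have hsum : ∑ i, (b i : ℂ) * l i + ((1 : ℤ) : ℂ) * Complex.log (ψ α₀) = Complex.log P := by
    simp only [l, b, Fin.sum_univ_succ, Fin.cons_zero, Fin.cons_succ]
    rw [he, hS]
    push_cast
    ring
  have heN : e.natAbs ≤ (r + 1) * N := by
    have him := congrArg Complex.im he
    simp [hS, Complex.log_im] at him
    have ha := Complex.abs_arg_le_pi
    have hsumb : |∑ i, (k i : ℝ) * (ψ (u i : K)).arg| ≤ ((r * N : ℕ) : ℝ) * π := by
      refine (abs_sum_le_sum_abs _ _).trans ((sum_le_card_nsmul _ _ ((N : ℝ) * π)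
        fun i _ => ?_).trans_eq ?_)
      · rw [abs_mul, ← Int.cast_abs, ← Int.natCast_natAbs, Int.cast_natCast]
        exact mul_le_mul (by exact_mod_cast hkm i) (ha _) (abs_nonneg _) (Nat.cast_nonneg _)
      · rw [card_univ, Fintype.card_fin, nsmul_eq_mul, Nat.cast_mul, mul_assoc]
    have h1 : |(e : ℝ) * (2 * π)| ≤ (((r + 1) * N : ℕ) : ℝ) * (2 * π) := by
      rw [show (e : ℝ) * (2 * π) =
          P.arg - (ψ α₀).arg - ∑ i, (k i : ℝ) * (ψ (u i : K)).arg by rw [him]; ring]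
      refine (abs_sub _ _).trans ((add_le_add ((abs_sub _ _).trans (add_le_add (ha _) (ha _)))
        hsumb).trans ?_)
      have hN' : (1 : ℝ) ≤ N := by exact_mod_cast hN
      have h5 : π * 1 ≤ π * N := mul_le_mul_of_nonneg_left hN' Real.pi_pos.le
      have h6 : 0 ≤ (r : ℝ) * N * π := by positivity
      push_cast
      nlinarith
    rw [abs_mul, abs_of_pos Real.two_pi_pos, ← Int.cast_abs, ← Int.natCast_natAbs,
      Int.cast_natCast] at h1
    exact_mod_cast le_of_mul_le_mul_right h1 Real.two_pi_pos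
  have hexp : ∀ i, Complex.exp (l i) =
      ψ ((Fin.cons 1 fun i => (u i : K) : Fin (r + 1) → K) i) :=
    Fin.cases (by simp [l, Complex.exp_two_pi_mul_I]) fun i => by
      simp only [l, Fin.cons_succ]; exact Complex.exp_log (hψu i)
  have hlle : ∀ i, ‖l i‖ ≤ (F : ℝ) := Fin.cases (by
      simp only [l, Fin.cons_zero, norm_mul, Complex.norm_real, Complex.norm_I,
        RCLike.norm_ofNat, Real.norm_eq_abs, abs_of_pos Real.pi_pos, mul_one]
      linarith [Real.pi_lt_four]) fun i => by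
    simp only [l, Fin.cons_succ]
    exact (SchinzelTijdeman.norm_log_le ψ fun h0 => hψu i (by rw [h0, map_zero])).trans (huH i)
  have hbm : ∀ i, (b i).natAbs ≤ 2 ^ m * R := Fin.cases (heN.trans hNm) fun i => by
    simp only [b, Fin.cons_succ]
    exact (hkm i).trans ((Nat.le_mul_of_pos_left _ (Nat.succ_pos r)).trans hNm)
  have key := BakerLastHeight.baker_last_height_ratio hd ψ (h := F) (m := m) hR
    (α := Fin.cons 1 fun i => (u i : K)) (α₀ := α₀)
    (Fin.cases (by simp) fun i => by simp only [Fin.cons_succ]; linarith [huH i])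
    (by linarith) hexp (Complex.exp_log hα₀0) hlle
    ((SchinzelTijdeman.norm_log_le ψ fun h0 => hα₀0 (by rw [h0, map_zero])).trans hα₀H) hbm
    (b₀ := 1) (by simpa using Nat.one_le_two_pow) one_ne_zero (by rw [hsum]; exact hΛ0)
  rw [hsum] at key
  exact key

set_option maxHeartbeats 1000000 in
/-- **The place where `a / b` is smallest.** -/
theorem exists_key_bound :
    ∃ T₀ : ℕ, ∀ (a b c : 𝓞 K) (h T : ℕ) (ψ : K →+* ℂ), a ≠ 0 → b ≠ 0 → c ≠ 0 → a + b + c = 0 →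
      (Algebra.norm ℤ b).natAbs ≤ 2 ^ h → (Algebra.norm ℤ c).natAbs ≤ 2 ^ h →
      (∀ σ : K →+* ℂ, |Real.log ‖σ (a : K) / σ (b : K)‖| ≤ (T : ℝ)) →
      Real.log ‖ψ (a : K) / ψ (b : K)‖ ≤ 1 - (T : ℝ) → T ≤ T₀ * (h + 1) := by
  classical
  set d := finrank ℚ K
  obtain ⟨u, hu, H, huh⟩ : ∃ u : Fin (rank K) → (𝓞 K)ˣ, IsMaxRank u ∧
      ∃ H : ℕ, ∀ i (σ : K →+* ℂ), |Real.log ‖σ (u i : K)‖| ≤ H := by
    obtain ⟨H, hH⟩ := Finite.exists_le fun p : Fin (rank K) × (K →+* ℂ) =>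
      ⌈|Real.log ‖p.2 (fundSystem K p.1 : K)‖|⌉₊
    exact ⟨fundSystem K, isMaxRank_fundSystem (K := K), H, fun i σ =>
      (Nat.le_ceil _).trans (Nat.cast_le.2 (hH (i, σ)))⟩
  set A := (d + 1) * H + 1 with hA
  set cX := d + 2 * A + 1 with hcX
  set E₀ := 2 * d * (2 * (rank K * H) + 5) with hE₀
  set mc := (rank K + 1) + cX + E₀ + 1 with hmc
  obtain ⟨C, hC⟩ : ∃ C, BakerLastHeight.lastHeightConst (rank K + 1) d = C := ⟨_, rfl⟩
  obtain ⟨κ, hκdef⟩ : ∃ κ, BakerLastHeight.lastHeightKappa (rank K + 1) = κ := ⟨_, rfl⟩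
  have hκ : 1 ≤ κ := by
    have := BakerLastHeight.coreKappa_facts (rank K + 1 + 1)
    rw [← hκdef, BakerLastHeight.lastHeightKappa]
    omega
  obtain ⟨D, hD⟩ : ∃ D, D = (C * (formSize d A H + mc + 2)) ^ κ := ⟨_, rfl⟩
  refine ⟨2 * 4 + 2 * (2 * κ) ^ (2 * κ) * D ^ 2,
    fun a b c h T ψ ha hb hc habc hbh hch hT hψ => ?_⟩
  rcases lt_or_ge T 3 with hT3 | hT3
  · exact le_trans (show T ≤ 2 * 4 by omega)
      (le_trans (Nat.le_add_right _ _) (Nat.le_mul_of_pos_right _ (Nat.succ_pos h)))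
  set R := h + 1 with hR
  have hR1 : 1 ≤ R := Nat.succ_pos h
  set t := T / R + 1 with ht
  have hTt : T + 1 ≤ R * t := Nat.lt_mul_div_succ T hR1
  suffices ht0 : t ≤ 4 + D * (Nat.log 2 t + 1) ^ κ by
    have h1 := BakerExplicit.le_of_le_add_mul_log_pow hκ ht0
    calc T ≤ R * t := by omega
      _ ≤ R * _ := Nat.mul_le_mul_left _ h1
      _ = _ := mul_comm _ _
  have hne : ∀ {z : 𝓞 K}, z ≠ 0 → ∀ σ : K →+* ℂ, σ (z : K) ≠ 0 := fun hz σ =>
    (map_ne_zero σ).2 (RingOfIntegers.coe_ne_zero_iff.2 hz)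
  have habc' : (a : K) + b + c = 0 := by exact_mod_cast congrArg (fun z : 𝓞 K => (z : K)) habc
  have hsplit : ∀ σ : K →+* ℂ, σ (c : K) / σ (b : K) = -(1 + σ (a : K) / σ (b : K)) := fun σ => by
    have e := congrArg σ habc'
    simp only [map_add, map_zero] at e
    have := hne hb σ
    field_simp
    linear_combination e
  -- the logarithms of `c / b`
  have hcb := abs_log_ratio_le (X := T + 1) (d := d) le_rfl hb hc hbh fun σ => by
    have hpos : 0 < ‖σ (a : K) / σ (b : K)‖ := norm_pos_iff.2 (div_ne_zero (hne ha σ) (hne hb σ))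
    have h1 : ‖σ (a : K) / σ (b : K)‖ ≤ Real.exp T := by
      rw [← Real.exp_log hpos]
      exact Real.exp_le_exp.2 ((le_abs_self _).trans (hT σ))
    rw [Real.log_le_iff_le_exp (norm_pos_iff.2 (div_ne_zero (hne hc σ) (hne hb σ))), hsplit,
      norm_neg, Nat.cast_add, Nat.cast_one, Real.exp_add]
    refine (norm_add_le _ _).trans ?_
    rw [norm_one]
    have : (1 : ℝ) ≤ Real.exp T := Real.one_le_exp (Nat.cast_nonneg _)
    have := Real.add_one_le_exp (1 : ℝ)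
    nlinarith [Real.exp_pos (T : ℝ)]
  -- the reduced numbers
  obtain ⟨k₂, γ₂, w₂, hγU₂, -, hγ₂, hlog₂⟩ := exists_reduced (d := d) le_rfl hu huh hb hbh
  obtain ⟨k₃, γ₃, w₃, hγU₃, -, hγ₃, hlog₃⟩ := exists_reduced (d := d) le_rfl hu huh hc hch
  have hred : reducedSize d H h ≤ A * R := by
    rw [reducedSize, hA, hR]
    nlinarith [Nat.zero_le ((d + 1) * H * h)]
  set g : K := -(γ₃ : K) / (γ₂ : K) with hg
  set m : Fin (rank K) → ℤ := fun i => k₃ i - k₂ i with hm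
  have hU : ∀ σ : K →+* ℂ, σ ((unitPow u m : (𝓞 K)ˣ) : K) =
      σ ((unitPow u k₃ : (𝓞 K)ˣ) : K) / σ ((unitPow u k₂ : (𝓞 K)ˣ) : K) := fun σ => by
    simp only [map_unitPow, hm, zpow_sub₀ (map_unit_ne_zero σ _), prod_div_distrib]
  have hratio : ∀ σ : K →+* ℂ, σ g * σ ((unitPow u m : (𝓞 K)ˣ) : K) =
      -(σ (c : K) / σ (b : K)) := fun σ => by
    rw [hU, hg, map_div₀, map_neg, ← hγU₂, ← hγU₃, map_mul, map_mul]
    have := hne hγ₂ σ
    have := map_unit_ne_zero σ (unitPow u k₂)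
    field_simp
  have hg0 : g ≠ 0 := div_ne_zero (neg_ne_zero.2 (RingOfIntegers.coe_ne_zero_iff.2 hγ₃))
    (RingOfIntegers.coe_ne_zero_iff.2 hγ₂)
  set X := d * (T + 1) + h + 2 * (A * R) + 1 with hX
  have hUlog : ∀ σ : K →+* ℂ, |Real.log ‖σ ((unitPow u m : (𝓞 K)ˣ) : K)‖| ≤ (X : ℕ) := fun σ => by
    have h1 := congrArg (fun z => Real.log ‖z‖) (hratio σ)
    simp only [norm_mul, norm_neg] at h1
    rw [Real.log_mul (norm_ne_zero_iff.2 ((map_ne_zero σ).2 hg0))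
      (norm_ne_zero_iff.2 (map_unit_ne_zero σ _))] at h1
    have h2 : |Real.log ‖σ g‖| ≤ ((2 * (A * R) : ℕ) : ℝ) := by
      rw [hg, map_div₀, map_neg, norm_div, norm_neg,
        Real.log_div (norm_ne_zero_iff.2 (hne hγ₃ σ)) (norm_ne_zero_iff.2 (hne hγ₂ σ))]
      have h5 : ((reducedSize d H h : ℕ) : ℝ) ≤ ((A * R : ℕ) : ℝ) := Nat.cast_le.2 hred
      refine (abs_sub _ _).trans ?_
      rw [Nat.cast_mul 2, Nat.cast_ofNat]
      linarith [hlog₂ σ, hlog₃ σ]
    have h3 := abs_le.1 (hcb σ)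
    have h2' := abs_le.1 h2
    rw [abs_le, hX, Nat.cast_add _ 1, Nat.cast_add _ (2 * (A * R))]
    push_cast at h1 h2' h3 ⊢
    constructor <;> linarith
  have hXle : X ≤ cX * (2 * (t * R)) := by
    have h1 : R + T + 1 ≤ 2 * (t * R) := by
      have h2 : R ≤ R * t := Nat.le_mul_of_pos_right _ (Nat.succ_pos _)
      rw [mul_comm t R]
      omega
    refine le_trans ?_ (Nat.mul_le_mul_left _ h1)
    have e : cX * (R + T + 1) =
        d * (T + 1) + d * R + (2 * (A * R) + 2 * A * (T + 1)) + (R + (T + 1)) := by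
      rw [hcX]; ring
    omega
  set N := cX * (2 * (t * R)) * 2 ^ E₀
  have hN : 1 ≤ N := Nat.mul_pos (lt_of_lt_of_le (Nat.succ_pos _) hXle) (Nat.two_pow_pos _)
  have hkm : ∀ i, (m i).natAbs ≤ N := fun i => by
    refine (exponent_le (k := m) (injective_unitPow hu) huh (Nat.succ_pos _) hUlog i).trans ?_
    exact Nat.mul_le_mul_right _ hXle
  set e := mc + (Nat.log 2 t + 1) with he
  have hNm : (rank K + 1) * N ≤ 2 ^ e * R := by
    calc (rank K + 1) * N = ((rank K + 1) * cX * 2 * 2 ^ E₀ * t) * R := by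
          show (rank K + 1) * (cX * (2 * (t * R)) * 2 ^ E₀) = _
          ring
      _ ≤ (2 ^ (rank K + 1) * 2 ^ cX * 2 ^ 1 * 2 ^ E₀ * 2 ^ (Nat.log 2 t + 1)) * R := by
          gcongr
          · exact Nat.lt_two_pow_self.le
          · exact Nat.lt_two_pow_self.le
          · norm_num
          · exact (Nat.lt_pow_succ_log_self one_lt_two t).le
      _ = _ := by simp only [← pow_add, he, hmc]; ring_nf
  -- the small logarithm
  set P := -(ψ (c : K) / ψ (b : K)) with hP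
  have hP1 : P = 1 + ψ (a : K) / ψ (b : K) := by rw [hP, hsplit, neg_neg]
  have hsmall : ‖ψ (a : K) / ψ (b : K)‖ ≤ 1 / (2 : ℝ) ^ (T - 1) := by
    rw [← Real.exp_log (norm_pos_iff.2 (div_ne_zero (hne ha ψ) (hne hb ψ)))]
    refine (Real.exp_le_exp.2 hψ).trans ?_
    rw [show (1 : ℝ) - T = -((T - 1 : ℕ) : ℝ) by rw [Nat.cast_sub (by omega)]; push_cast; ring,
      Real.exp_neg, one_div, ← Real.rpow_natCast]
    refine inv_anti₀ (by positivity) ?_
    rw [Real.rpow_natCast, ← Real.exp_one_pow]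
    exact pow_le_pow_left₀ two_pos.le Real.exp_one_gt_two.le _
  have hhalf : ‖ψ (a : K) / ψ (b : K)‖ ≤ 1 / 2 :=
    hsmall.trans (one_div_le_one_div_of_le two_pos (le_self_pow₀ one_le_two (by omega)))
  have hlog := Complex.norm_log_one_add_half_le_self hhalf
  rw [← hP1] at hlog
  have hΛ : ‖Complex.log P‖ ≤ 1 / (2 : ℝ) ^ (T - 2) := by
    refine hlog.trans (le_trans (mul_le_mul_of_nonneg_left hsmall (by norm_num)) ?_)
    rw [show T - 1 = T - 2 + 1 by omega, pow_succ]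
    have : (0 : ℝ) < 2 ^ (T - 2) := by positivity
    field_simp
    norm_num
  have hΛ0 : Complex.log P ≠ 0 := fun h0 => by
    have hP0 : P ≠ 0 := neg_ne_zero.2 (div_ne_zero (hne hc ψ) (hne hb ψ))
    have h1 : P = 1 := by rw [← Complex.exp_log hP0, h0, Complex.exp_zero]
    rw [hP1, add_eq_left, div_eq_zero_iff] at h1
    exact h1.elim (hne ha ψ) (hne hb ψ)
  have hlow := form_le (A := A) le_rfl hR1 ψ huh hN hkm hNm hγ₂ hγ₃
    (fun σ => (hlog₂ σ).trans (Nat.cast_le.2 hred))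
    (fun σ => (hlog₃ σ).trans (Nat.cast_le.2 hred))
    (P := P) (by rw [hP, ← hratio, map_unitPow]) hΛ0
  rw [hC, hκdef] at hlow
  obtain ⟨Q, hQ⟩ : ∃ Q, Q = (C * (formSize d A H + e + 1)) ^ κ := ⟨_, rfl⟩
  rw [← hQ] at hlow
  have h5 := hlow.trans hΛ
  rw [div_le_div_iff₀ (by positivity) (by positivity), one_mul, one_mul] at h5
  have h6 := (pow_le_pow_iff_right₀ (one_lt_two (α := ℝ))).1 h5
  have hdiv : T / R ≤ Q + 2 := Nat.div_le_of_le_mul (by
    rw [mul_add]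
    have := Nat.le_mul_of_pos_left 2 hR1
    omega)
  have hQD : Q ≤ D * (Nat.log 2 t + 1) ^ κ := by
    rw [hQ, hD, ← mul_pow, mul_assoc]
    refine Nat.pow_le_pow_left (Nat.mul_le_mul_left _ ?_) _
    have h2 : formSize d A H + mc + 1 ≤ (formSize d A H + mc + 1) * (Nat.log 2 t + 1) :=
      Nat.le_mul_of_pos_right _ (Nat.succ_pos _)
    rw [he, show (formSize d A H + mc + 2) * (Nat.log 2 t + 1) =
      (formSize d A H + mc + 1) * (Nat.log 2 t + 1) + (Nat.log 2 t + 1) by ring]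
    omega
  omega

/-- **The logarithm of a ratio of two terms is linear in that of the norms.** -/
theorem exists_ratio_bound :
    ∃ T₀ : ℕ, ∀ (a b c : 𝓞 K) (h : ℕ), a ≠ 0 → b ≠ 0 → c ≠ 0 → a + b + c = 0 →
      (Algebra.norm ℤ a).natAbs ≤ 2 ^ h → (Algebra.norm ℤ b).natAbs ≤ 2 ^ h →
      (Algebra.norm ℤ c).natAbs ≤ 2 ^ h → ∀ σ : K →+* ℂ,
        |Real.log ‖σ (a : K) / σ (b : K)‖| ≤ ((T₀ * (h + 1) : ℕ) : ℝ) := by
  classical
  obtain ⟨T₀, key⟩ := exists_key_bound (K := K)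
  refine ⟨T₀, fun a b c h ha hb hc habc hah hbh hch σ => ?_⟩
  obtain ⟨ψ, -, hmax⟩ := exists_max_image univ
    (fun τ : K →+* ℂ => |Real.log ‖τ (a : K) / τ (b : K)‖|) ⟨σ, mem_univ σ⟩
  set T := ⌈|Real.log ‖ψ (a : K) / ψ (b : K)‖|⌉₊ with hT
  have hle : ∀ τ : K →+* ℂ, |Real.log ‖τ (a : K) / τ (b : K)‖| ≤ (T : ℝ) := fun τ =>
    (hmax τ (mem_univ τ)).trans (Nat.le_ceil _)
  have hlt : (T : ℝ) < |Real.log ‖ψ (a : K) / ψ (b : K)‖| + 1 := Nat.ceil_lt_add_one (abs_nonneg _)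
  refine (hle σ).trans (Nat.cast_le.2 ?_)
  have hinv : ∀ τ : K →+* ℂ, Real.log ‖τ (b : K) / τ (a : K)‖ =
      -Real.log ‖τ (a : K) / τ (b : K)‖ := fun τ => by
    rw [← Real.log_inv, ← norm_inv, inv_div]
  rcases le_or_gt (Real.log ‖ψ (a : K) / ψ (b : K)‖) 0 with hs | hs
  · exact key a b c h T ψ ha hb hc habc hbh hch hle
      (by rw [abs_of_nonpos hs] at hlt; linarith)
  · exact key b a c h T ψ hb ha hc (by rw [← habc]; ring) hah hch
      (fun τ => by rw [hinv, abs_neg]; exact hle τ)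
      (by rw [abs_of_pos hs] at hlt; rw [hinv]; linarith)

end FA.UnitEquationLinear

end
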