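import Fermat.Agent.UnitEquationLinear.Ratio
import Fermat.Agent.SchinzelTijdeman.Exponent

/-!
# The unit equation, linearly in the height of the coefficients

Clearing the denominators turns `α x + β y = 1` into three integers with sum zero whose norms are
exponential in the height of `α` and `β`, so the heights of the units are linear in it.
-/

set_option autoImplicit false

noncomputable section

namespace FA.UnitEquationLinear

open Finset NumberField NumberField.Units Module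
open BakerExplicit.EffectiveThue BakerExplicit.UnitExponents BakerExplicit.EffectiveUnits

variable {K : Type*} [Field K] [NumberField K]

/-- **Three numbers with sum zero**: their conjugates differ by a power of the largest norm. -/
theorem exists_norm_triple_bound :
    ∃ T : ℕ, ∀ (a b c : 𝓞 K) (X : ℕ), a ≠ 0 → b ≠ 0 → c ≠ 0 → a + b + c = 0 →
      (Algebra.norm ℤ a).natAbs ≤ X → (Algebra.norm ℤ b).natAbs ≤ X →
      (Algebra.norm ℤ c).natAbs ≤ X → ∀ σ : K →+* ℂ,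
        ‖σ (a : K)‖ ≤ (2 * (X : ℝ)) ^ T * ‖σ (b : K)‖ := by
  obtain ⟨T₀, hT₀⟩ := exists_ratio_bound (K := K)
  refine ⟨4 * T₀, fun a b c X ha hb hc habc hah hbh hch σ => ?_⟩
  have hX : 1 ≤ X := le_trans (Int.natAbs_pos.2 (Algebra.norm_ne_zero_iff.2 ha)) hah
  have hle : X ≤ 2 ^ (Nat.log 2 X + 1) := (Nat.lt_pow_succ_log_self one_lt_two X).le
  have h1 := hT₀ a b c (Nat.log 2 X + 1) ha hb hc habc (hah.trans hle) (hbh.trans hle)
    (hch.trans hle) σ
  have ha' : σ (a : K) ≠ 0 := (map_ne_zero σ).2 (RingOfIntegers.coe_ne_zero_iff.2 ha)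
  have hb' : σ (b : K) ≠ 0 := (map_ne_zero σ).2 (RingOfIntegers.coe_ne_zero_iff.2 hb)
  have h2 := le_two_pow_of_abs_log_le (norm_pos_iff.2 (div_ne_zero ha' hb')) h1
  rw [norm_div, div_le_iff₀ (norm_pos_iff.2 hb')] at h2
  refine h2.trans (mul_le_mul_of_nonneg_right ?_ (norm_nonneg _))
  have h3 : (2 : ℕ) ^ (Nat.log 2 X + 1) ≤ 2 * X := by
    rw [pow_succ, mul_comm]
    exact Nat.mul_le_mul_left _ (Nat.pow_log_le_self 2 (by omega))
  have h4 : 2 ^ (2 * (T₀ * (Nat.log 2 X + 1 + 1))) ≤ (2 * X) ^ (4 * T₀) := by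
    refine le_trans (Nat.pow_le_pow_right two_pos ?_) (le_trans (le_of_eq (pow_mul 2 _ _))
      (Nat.pow_le_pow_left h3 _))
    nlinarith [Nat.zero_le (T₀ * Nat.log 2 X)]
  exact_mod_cast h4

/-- One unknown of the unit equation. -/
theorem exists_height_left_le :
    ∃ C : ℕ, ∀ (α β : K) (x y : (𝓞 K)ˣ), α ≠ 0 → β ≠ 0 → α * (x : K) + β * (y : K) = 1 →
      Height.logHeight₁ (x : K) ≤
        (C : ℝ) * (1 + Height.logHeight₁ α + Height.logHeight₁ β) := by
  obtain ⟨T₀, hT₀⟩ := exists_ratio_bound (K := K)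
  set d := finrank ℚ K with hd
  refine ⟨2 * d * (T₀ * (4 * d + 2) + 1), fun α β x y hα hβ he => ?_⟩
  set u := Height.logHeight₁ α with hu
  set v := Height.logHeight₁ β with hv
  have hu0 : 0 ≤ u := Height.zero_le_logHeight₁ _
  have hv0 : 0 ≤ v := Height.zero_le_logHeight₁ _
  set h := ⌈4 * (d : ℝ) * (u + v)⌉₊ with hh
  obtain ⟨Dα, hDα, hiα, hDαle, hσα⟩ := BakerLastHeight.exists_den_le α
  obtain ⟨Dβ, hDβ, hiβ, hDβle, hσβ⟩ := BakerLastHeight.exists_den_le β
  have hexp : ∀ z : K, Height.mulHeight₁ z = Real.exp (Height.logHeight₁ z) := fun z => by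
    rw [Height.logHeight₁_eq_log_mulHeight₁, Real.exp_log (Height.mulHeight₁_pos z)]
  rw [hexp, ← hu] at hDαle
  rw [hexp, ← hv] at hDβle
  simp only [hexp, ← hu] at hσα
  simp only [hexp, ← hv] at hσβ
  obtain ⟨a₀, ha₀⟩ : ∃ z : 𝓞 K, (z : K) = (Dα : K) * α := ⟨⟨_, hiα⟩, rfl⟩
  obtain ⟨c₀, hc₀⟩ : ∃ z : 𝓞 K, (z : K) = (Dβ : K) * β := ⟨⟨_, hiβ⟩, rfl⟩
  set a : 𝓞 K := (Dβ : 𝓞 K) * a₀ * (x : 𝓞 K) with hadef
  set b : 𝓞 K := -((Dα * Dβ : ℕ) : 𝓞 K) with hbdef
  set c : 𝓞 K := (Dα : 𝓞 K) * c₀ * (y : 𝓞 K) with hcdef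
  have hA : (a : K) = (Dα * Dβ : ℕ) * α * (x : K) := by
    simp only [hadef, RingOfIntegers.coe_eq_algebraMap, map_mul, map_natCast] at ha₀ ⊢
    rw [ha₀]; push_cast; ring
  have hB : (b : K) = -((Dα * Dβ : ℕ) : K) := by
    simp only [hbdef, map_neg, map_natCast]
  have hC : (c : K) = (Dα * Dβ : ℕ) * β * (y : K) := by
    simp only [hcdef, RingOfIntegers.coe_eq_algebraMap, map_mul, map_natCast] at hc₀ ⊢
    rw [hc₀]; push_cast; ring
  have hD0 : ((Dα * Dβ : ℕ) : K) ≠ 0 := Nat.cast_ne_zero.2 (Nat.mul_pos hDα hDβ).ne'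
  have habc : a + b + c = 0 := by
    refine RingOfIntegers.coe_injective ?_
    simp only [RingOfIntegers.coe_eq_algebraMap] at hA hB hC he
    rw [map_add, map_add, map_zero, hA, hB, hC]
    linear_combination ((Dα * Dβ : ℕ) : K) * he
  have ha : a ≠ 0 := fun e => by
    simp only [e, map_zero] at hA
    exact mul_ne_zero (mul_ne_zero hD0 hα) (RingOfIntegers.coe_ne_zero_iff.2 x.ne_zero) hA.symm
  have hb : b ≠ 0 := fun e => by
    simp only [e, map_zero] at hB
    rw [eq_comm, neg_eq_zero] at hB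
    exact hD0 hB
  have hc : c ≠ 0 := fun e => by
    simp only [e, map_zero] at hC
    exact mul_ne_zero (mul_ne_zero hD0 hβ) (RingOfIntegers.coe_ne_zero_iff.2 y.ne_zero) hC.symm
  -- the norms
  have hnorm : ∀ z : 𝓞 K, (∃ w : 𝓞 K, ∃ e : (𝓞 K)ˣ, z = w * e ∧
      ∀ σ : K →+* ℂ, ‖σ (w : K)‖ ≤ Real.exp (2 * (u + v))) →
      (Algebra.norm ℤ z).natAbs ≤ 2 ^ h := by
    rintro z ⟨w, e, rfl, hw⟩
    rw [map_mul, Int.natAbs_mul, Int.isUnit_iff_natAbs_eq.1 (e.isUnit.map _), mul_one]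
    have h1 : ((Algebra.norm ℤ w).natAbs : ℝ) ≤ Real.exp (2 * (u + v)) ^ d := by
      rw [Nat.cast_natAbs, Int.cast_abs,
        ← prod_norm_eq (M := Algebra.norm ℤ w) (Algebra.coe_norm_int w).symm]
      refine (prod_le_prod (fun σ _ => norm_nonneg _) fun σ _ => hw σ).trans_eq ?_
      rw [prod_const, card_univ, Embeddings.card]
    have h2 : Real.exp (2 * (u + v)) ^ d ≤ (2 : ℝ) ^ h := by
      rw [← Real.exp_nat_mul, ← Real.exp_log (show (0 : ℝ) < 2 ^ h by positivity), Real.log_pow,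
        Real.exp_le_exp]
      have h3 : 4 * (d : ℝ) * (u + v) ≤ h := Nat.le_ceil _
      nlinarith [Real.log_two_gt_d9, Nat.cast_nonneg (α := ℝ) h]
    exact_mod_cast h1.trans h2
  have hDle : ((Dα * Dβ : ℕ) : ℝ) ≤ Real.exp (u + v) := by
    rw [Nat.cast_mul, Real.exp_add]
    exact mul_le_mul hDαle hDβle (Nat.cast_nonneg _) (Real.exp_pos _).le
  have hah : (Algebra.norm ℤ a).natAbs ≤ 2 ^ h := hnorm a ⟨(Dβ : 𝓞 K) * a₀, x, rfl, fun σ => by
    simp only [RingOfIntegers.coe_eq_algebraMap] at ha₀ ⊢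
    rw [map_mul, map_natCast, ha₀, map_mul, map_mul, map_natCast, map_natCast, norm_mul, norm_mul,
      Complex.norm_natCast, Complex.norm_natCast,
      show Real.exp (2 * (u + v)) = Real.exp v * (Real.exp u * Real.exp (u + v)) by
        rw [← Real.exp_add, ← Real.exp_add]; ring_nf]
    refine mul_le_mul hDβle (mul_le_mul hDαle ((hσα σ).trans (Real.exp_le_exp.2 (by linarith)))
      (norm_nonneg _) (Real.exp_pos _).le) (by positivity) (Real.exp_pos _).le⟩
  have hbh : (Algebra.norm ℤ b).natAbs ≤ 2 ^ h := hnorm b ⟨b, 1, by simp, fun σ => by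
    rw [hB, map_neg, map_natCast, norm_neg, Complex.norm_natCast]
    exact hDle.trans (Real.exp_le_exp.2 (by linarith))⟩
  have hch : (Algebra.norm ℤ c).natAbs ≤ 2 ^ h := hnorm c ⟨(Dα : 𝓞 K) * c₀, y, rfl, fun σ => by
    simp only [RingOfIntegers.coe_eq_algebraMap] at hc₀ ⊢
    rw [map_mul, map_natCast, hc₀, map_mul, map_mul, map_natCast, map_natCast, norm_mul, norm_mul,
      Complex.norm_natCast, Complex.norm_natCast,
      show Real.exp (2 * (u + v)) = Real.exp u * (Real.exp v * Real.exp (u + v)) by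
        rw [← Real.exp_add, ← Real.exp_add]; ring_nf]
    refine mul_le_mul hDαle (mul_le_mul hDβle ((hσβ σ).trans (Real.exp_le_exp.2 (by linarith)))
      (norm_nonneg _) (Real.exp_pos _).le) (by positivity) (Real.exp_pos _).le⟩
  -- the conjugates of `x`
  set n := T₀ * (h + 1) + ⌈u⌉₊ with hn
  have hlog : ∀ σ : K →+* ℂ, |Real.log ‖σ (x : K)‖| ≤ (n : ℝ) := fun σ => by
    have h1 := hT₀ a b c h ha hb hc habc hah hbh hch σ
    rw [hA, hB, map_mul, map_mul, map_neg, map_natCast, norm_div, norm_neg, norm_mul, norm_mul,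
      mul_assoc, mul_div_cancel_left₀ _ (norm_ne_zero_iff.2
        (Nat.cast_ne_zero.2 (Nat.mul_pos hDα hDβ).ne')),
      Real.log_mul (norm_ne_zero_iff.2 ((map_ne_zero σ).2 hα))
        (norm_ne_zero_iff.2 (map_unit_ne_zero σ x))] at h1
    have h2 := abs_le.1 ((SchinzelTijdeman.abs_log_norm_le σ hα).trans_eq hu.symm)
    have h3 := abs_le.1 h1
    have h4 : u ≤ ⌈u⌉₊ := Nat.le_ceil _
    rw [hn, Nat.cast_add, abs_le]
    constructor <;> linarith
  have hH := Feldman.logHeight_le_of_bounded (x : 𝓞 K).isIntegral_coe fun σ =>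
    le_two_pow_of_abs_log_le (norm_pos_iff.2 (map_unit_ne_zero σ x)) (hlog σ)
  refine hH.trans ?_
  have hh1 : (h : ℝ) ≤ 4 * d * (u + v) + 1 := (Nat.ceil_lt_add_one (by positivity)).le
  have hu1 : (⌈u⌉₊ : ℝ) ≤ u + 1 := (Nat.ceil_lt_add_one hu0).le
  have hd0 : (0 : ℝ) ≤ d := Nat.cast_nonneg _
  have hT : (0 : ℝ) ≤ T₀ := Nat.cast_nonneg _
  have e1 : (n : ℝ) ≤ ((T₀ * (4 * d + 2) + 1 : ℕ) : ℝ) * (1 + u + v) := by
    rw [hn]
    push_cast
    nlinarith [mul_le_mul_of_nonneg_left hh1 hT, mul_nonneg hT (add_nonneg hu0 hv0),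
      mul_nonneg hT hd0]
  rw [← hd]
  push_cast at e1 ⊢
  nlinarith [mul_le_mul_of_nonneg_left e1 (mul_nonneg (zero_le_two (α := ℝ)) hd0)]

/-- **The unit equation**: the height of a solution is linear in that of the coefficients. -/
theorem exists_unit_equation_height_le :
    ∃ C : ℕ, ∀ (α β : K) (x y : (𝓞 K)ˣ), α ≠ 0 → β ≠ 0 → α * (x : K) + β * (y : K) = 1 →
      Height.logHeight₁ (x : K) ≤ (C : ℝ) * (1 + Height.logHeight₁ α + Height.logHeight₁ β) ∧
      Height.logHeight₁ (y : K) ≤ (C : ℝ) * (1 + Height.logHeight₁ α + Height.logHeight₁ β) := by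
  obtain ⟨C, hC⟩ := exists_height_left_le (K := K)
  refine ⟨C, fun α β x y hα hβ he => ⟨hC α β x y hα hβ he, ?_⟩⟩
  rw [add_right_comm]
  exact hC β α y x hβ hα (by rw [add_comm, he])

end FA.UnitEquationLinear

end
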